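import Fermat.Agent.A3.H735.Tube
import Fermat.Agent.A3.H799.Disc

/-!
# A3 / LOCAL — the DISC DICTIONARY, part 2: the `DiscAlg` instance  (helper735)

For a residue disc `D : Disc C` (see `Tube.lean`) the ring `D.ring` of functions of `V` which are
regular on the disc is a disc algebra in the sense of helper799 (`H799.DiscAlg`):

* `Disc.pt a`      : the point of the disc with parameter `a ∈ 𝔪_A`;
* `Disc.evFun`     : evaluation at a point of the disc, an `A`-algebra homomorphism `D.ring → A`;
* `Disc.discAlg`   : `H799.DiscAlg C.A D.ring`  (parameter `t`, `ev a` = evaluation at `pt a`).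
* dictionary lemmas `Disc.ev_spec`, `Disc.pt_spec`, `Disc.pt_mem`, `Disc.eq_pt`.
-/

set_option autoImplicit false

noncomputable section

namespace Fermat.Agent.A3.H735

open AlgebraicCurve Fermat.Agent.S37.H940 Fermat.Agent.A3.H799

variable {K F k Fk : Type*} [Field K] [Field F] [Algebra K F] [Field k] [Field Fk]
  [Algebra k Fk]

namespace Disc

variable {C : Ctx K F k Fk} (D : Disc C)

/-- regularity on the disc, for elements of `F` -/
def RegF (f : F) : Prop := ∀ P ∈ D.Φ.𝔉, 0 ≤ P.ord f

theorem reg_iff (b : C.V) : D.Reg b ↔ D.RegF (b : F) := Iff.rfl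

/-- The subring of functions of `V` regular on the disc. -/
def subring : Subring F where
  carrier := {f : F | f ∈ C.V ∧ D.RegF f}
  mul_mem' := by
    rintro f g ⟨hf, hf'⟩ ⟨hg, hg'⟩
    exact ⟨C.V.mul_mem hf hg, fun P hP => ord_nonneg_mul (hf' P hP) (hg' P hP)⟩
  add_mem' := by
    rintro f g ⟨hf, hf'⟩ ⟨hg, hg'⟩
    exact ⟨C.V.add_mem hf hg, fun P hP => ord_nonneg_add (hf' P hP) (hg' P hP)⟩
  one_mem' := ⟨C.V.one_mem, D.reg_one⟩
  zero_mem' := ⟨C.V.zero_mem, D.reg_zero⟩
  neg_mem' := by
    rintro f ⟨hf, hf'⟩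
    refine ⟨C.V.neg_mem hf, fun P hP => ?_⟩
    rw [Fermat.Agent.S37.H940.ord_neg]
    exact hf' P hP

/-- The ring of functions of `V` regular on the disc, an `A`-algebra. -/
def ring : Subalgebra C.A F :=
  { D.subring.toSubsemiring with
    algebraMap_mem' := fun a => ⟨C.A_mem a, D.reg_const a⟩ }

theorem mem_ring {f : F} : f ∈ D.ring ↔ f ∈ C.V ∧ D.RegF f := Iff.rfl

/-- an element of the ring as an element of `V` -/
def toV (f : D.ring) : C.V := ⟨(f : F), f.2.1⟩

@[simp] theorem coe_toV (f : D.ring) : ((D.toV f : C.V) : F) = (f : F) := rfl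

theorem reg_toV (f : D.ring) : D.Reg (D.toV f) := f.2.2

/-- a regular element of `V` as an element of the ring -/
def ofV (b : C.V) (hb : D.Reg b) : D.ring := ⟨(b : F), ⟨b.2, hb⟩⟩

@[simp] theorem coe_ofV (b : C.V) (hb : D.Reg b) : ((D.ofV b hb : D.ring) : F) = (b : F) := rfl

theorem coe_algebraMap (a : C.A) :
    ((algebraMap C.A D.ring a : D.ring) : F) = algebraMap K F (a : K) := rfl

include D in
theorem π_eq_zero_of_mem {a : C.A} (ha : a ∈ IsLocalRing.maximalIdeal C.A) : C.π a = 0 :=
  (C.π_eq_zero a).2 ((IsLocalRing.mem_maximalIdeal a).1 ha)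

include D in
theorem mem_of_π_eq_zero {a : C.A} (ha : C.π a = 0) : a ∈ IsLocalRing.maximalIdeal C.A :=
  (IsLocalRing.mem_maximalIdeal a).2 ((C.π_eq_zero a).1 ha)

/-- the point of the disc with parameter `a` -/
def pt (a : IsLocalRing.maximalIdeal C.A) : Place K F :=
  (D.exists_pt (D.π_eq_zero_of_mem a.2)).choose

theorem pt_mem (a : IsLocalRing.maximalIdeal C.A) : D.pt a ∈ D.Φ.𝔉 :=
  (D.exists_pt (D.π_eq_zero_of_mem a.2)).choose_spec.1

theorem ord_pt (a : IsLocalRing.maximalIdeal C.A) :
    (D.pt a).ord ((D.tsub (a : C.A) : C.V) : F) = 1 :=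
  (D.exists_pt (D.π_eq_zero_of_mem a.2)).choose_spec.2.1

theorem pt_spec (a : IsLocalRing.maximalIdeal C.A) :
    InMax (D.pt a) ((D.t : F) - algebraMap K F ((a : C.A) : K)) := by
  refine inMax_of_ord_pos ?_
  have e : (D.t : F) - algebraMap K F ((a : C.A) : K) = ((D.tsub (a : C.A) : C.V) : F) := rfl
  rw [e, D.ord_pt a]
  exact one_pos

/-- a point of the disc is the point of its parameter -/
theorem eq_pt {P : Place K F} (hP : P ∈ D.Φ.𝔉) {a : C.A}
    (ha : InMax P ((D.t : F) - algebraMap K F (a : K))) :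
    P = D.pt ⟨a, D.mem_of_π_eq_zero (D.tval_pi hP ha)⟩ :=
  D.pt_unique hP (D.pt_mem _) ha (D.pt_spec _)

/-- every point of the disc is the point of a parameter -/
theorem exists_eq_pt {P : Place K F} (hP : P ∈ D.Φ.𝔉) :
    ∃ a : IsLocalRing.maximalIdeal C.A, P = D.pt a := by
  obtain ⟨a, ha⟩ := D.exists_val D.reg_t hP
  exact ⟨_, D.eq_pt hP ha⟩

theorem pt_injective : Function.Injective D.pt := by
  intro a b h
  have h1 := D.pt_spec a
  have h2 := D.pt_spec b
  rw [h] at h1
  exact Subtype.ext (Subtype.ext (value_unique h1 h2))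

/-- the value of a regular function at a point of the disc -/
def valAt (f : D.ring) {P : Place K F} (hP : P ∈ D.Φ.𝔉) : C.A :=
  (D.exists_val (D.reg_toV f) hP).choose

theorem valAt_spec (f : D.ring) {P : Place K F} (hP : P ∈ D.Φ.𝔉) :
    InMax P ((f : F) - algebraMap K F ((D.valAt f hP : C.A) : K)) :=
  (D.exists_val (D.reg_toV f) hP).choose_spec

theorem valAt_eq (f : D.ring) {P : Place K F} (hP : P ∈ D.Φ.𝔉) {c : C.A}
    (hc : InMax P ((f : F) - algebraMap K F (c : K))) : D.valAt f hP = c :=
  Subtype.ext (value_unique (D.valAt_spec f hP) hc)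

/-- evaluation at a point of the disc, as a homomorphism of `A`-algebras -/
def evFun {P : Place K F} (hP : P ∈ D.Φ.𝔉) : D.ring →ₐ[C.A] C.A where
  toFun f := D.valAt f hP
  map_one' := D.valAt_eq _ hP (by
    show InMax P ((1 : F) - algebraMap K F ((1 : C.A) : K))
    rw [OneMemClass.coe_one, map_one, sub_self]
    exact inMax_zero P)
  map_zero' := D.valAt_eq _ hP (by
    show InMax P ((0 : F) - algebraMap K F ((0 : C.A) : K))
    rw [ZeroMemClass.coe_zero, map_zero, sub_self]
    exact inMax_zero P)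
  map_add' f g := D.valAt_eq _ hP (by
    have e : ((f + g : D.ring) : F) -
        algebraMap K F ((D.valAt f hP + D.valAt g hP : C.A) : K) =
        ((f : F) - algebraMap K F ((D.valAt f hP : C.A) : K)) +
          ((g : F) - algebraMap K F ((D.valAt g hP : C.A) : K)) := by
      have h1 : ((f + g : D.ring) : F) = (f : F) + (g : F) := rfl
      have h2 : ((D.valAt f hP + D.valAt g hP : C.A) : K) =
          ((D.valAt f hP : C.A) : K) + ((D.valAt g hP : C.A) : K) := rfl
      rw [h1, h2, map_add]
      ring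
    rw [e]
    exact (D.valAt_spec f hP).add (D.valAt_spec g hP))
  map_mul' f g := D.valAt_eq _ hP (by
    have e : ((f * g : D.ring) : F) -
        algebraMap K F ((D.valAt f hP * D.valAt g hP : C.A) : K) =
        ((f : F) - algebraMap K F ((D.valAt f hP : C.A) : K)) * (g : F) +
          algebraMap K F ((D.valAt f hP : C.A) : K) *
            ((g : F) - algebraMap K F ((D.valAt g hP : C.A) : K)) := by
      have h1 : ((f * g : D.ring) : F) = (f : F) * (g : F) := rfl
      have h2 : ((D.valAt f hP * D.valAt g hP : C.A) : K) =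
          ((D.valAt f hP : C.A) : K) * ((D.valAt g hP : C.A) : K) := rfl
      rw [h1, h2, map_mul]
      ring
    rw [e]
    exact ((D.valAt_spec f hP).mul_of_ord_nonneg (D.reg_toV g P hP)).add
      ((D.valAt_spec g hP).const_mul _))
  commutes' a := D.valAt_eq _ hP (by
    rw [coe_algebraMap]
    show InMax P (algebraMap K F (a : K) - algebraMap K F (a : K))
    rw [sub_self]
    exact inMax_zero P)

theorem evFun_spec {P : Place K F} (hP : P ∈ D.Φ.𝔉) (f : D.ring) :
    InMax P ((f : F) - algebraMap K F ((D.evFun hP f : C.A) : K)) :=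
  D.valAt_spec f hP

theorem evFun_eq {P : Place K F} (hP : P ∈ D.Φ.𝔉) (f : D.ring) {c : C.A}
    (hc : InMax P ((f : F) - algebraMap K F (c : K))) : D.evFun hP f = c :=
  D.valAt_eq f hP hc

/-- the parameter as an element of the ring -/
def tR : D.ring := D.ofV D.t D.reg_t

@[simp] theorem coe_tR : ((D.tR : D.ring) : F) = (D.t : F) := rfl

theorem coe_tR_sub (a : C.A) :
    ((D.tR - algebraMap C.A D.ring a : D.ring) : F) = ((D.tsub a : C.V) : F) := rfl

/-- **The disc algebra of a residue disc.** -/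
def discAlg : DiscAlg C.A D.ring where
  t := D.tR
  ev a := D.evFun (D.pt_mem a)
  ev_t a := D.evFun_eq _ _ (D.pt_spec a)
  taylor a f := by
    obtain ⟨h, hh, e⟩ := D.exists_taylor (D.reg_toV f) (D.pt_mem a) (D.pt_spec a)
      (D.evFun_spec (D.pt_mem a) f)
    refine ⟨D.ofV h hh, Subtype.ext ?_⟩
    have e' := congrArg (fun b : C.V => (b : F)) e
    exact e'
  nzd a f h := by
    have h' := congrArg (fun b : D.ring => (b : F)) h
    have h'' : ((D.tsub (a : C.A) : C.V) : F) * (f : F) = 0 := h'
    rcases mul_eq_zero.1 h'' with h0 | h0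
    · exact absurd h0 (D.tsub_ne_zero (D.π_eq_zero_of_mem a.2))
    · exact Subtype.ext h0

@[simp] theorem discAlg_t : D.discAlg.t = D.tR := rfl

theorem discAlg_ev (a : IsLocalRing.maximalIdeal C.A) (f : D.ring) :
    D.discAlg.ev a f = D.evFun (D.pt_mem a) f := rfl

/-- dictionary: `ev a f` is the value of `f` at the point with parameter `a` -/
theorem ev_spec (a : IsLocalRing.maximalIdeal C.A) (f : D.ring) :
    InMax (D.pt a) ((f : F) - algebraMap K F ((D.discAlg.ev a f : C.A) : K)) :=
  D.evFun_spec (D.pt_mem a) f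

/-- dictionary: `ev a f = 0` iff `f` vanishes at the point with parameter `a` -/
theorem ev_eq_zero_iff (a : IsLocalRing.maximalIdeal C.A) (f : D.ring) :
    D.discAlg.ev a f = 0 ↔ InMax (D.pt a) (f : F) := by
  constructor
  · intro h
    have := D.ev_spec a f
    rwa [h, ZeroMemClass.coe_zero, map_zero, sub_zero] at this
  · intro h
    refine D.evFun_eq _ _ ?_
    rwa [ZeroMemClass.coe_zero, map_zero, sub_zero]

/-- dictionary: `ev a f` is a unit iff `f` does not vanish at the point with parameter `a` -/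
theorem isUnit_ev_iff (a : IsLocalRing.maximalIdeal C.A) (f : D.ring)
    (hred : InMax D.Q (C.ρ (D.toV f)) → InMax (D.pt a) (f : F)) :
    IsUnit (D.discAlg.ev a f) ↔ ¬ InMax (D.pt a) (f : F) := by
  constructor
  · intro hu h
    rw [← D.ev_eq_zero_iff] at h
    rw [h] at hu
    exact not_isUnit_zero hu
  · intro h
    by_contra hu
    apply h
    apply hred
    have hπ : C.π (D.discAlg.ev a f) = 0 := (C.π_eq_zero _).2 hu
    have h1 := D.val_red (D.reg_toV f) (D.pt_mem a) (D.ev_spec a f)
    rwa [hπ, map_zero, sub_zero] at h1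

end Disc

end Fermat.Agent.A3.H735
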