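import Fermat.Agent.A3.H735.DiscInst
import Fermat.Agent.Lib.RR.Ord

/-!
# A3 / LOCAL — the DISC DICTIONARY, part 3: zeros and factorisation  (helper735)

`D : Disc C` a residue disc with parameter `t` (see `Tube.lean`, `DiscInst.lean`).

* `Disc.ord_nodal`        : `ord_P ∏ (t - a_i) = #{i | pt a_i = P}` on the disc;
* `Disc.ρ_nodal`          : `ρ (∏ (t - a_i)) = (ρ t) ^ n`;
* `Disc.exists_nodal_mul` : a regular function whose zeros on the disc dominate the points
                            `pt a_1, …, pt a_n` is `∏ (t - a_i) · h` with `h` regular;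
* `Disc.exists_factor`    : **factorisation**: a regular `f` with `ρ f ≠ 0` is
                            `∏ (t - a_i) · u`, `n = ord_Q (ρ f)`, `u` a unit of the ring of the disc;
* `Disc.hgeo_local`       : the disc-local part of the hypothesis `hgeo` of `H799.local_mem`:
                            if `G = ∏ (t - y_i) · h`, `ord_Q (ρ G) = n + 1` and `G` vanishes at
                            `pt c` to a higher order than the nodes account for, then
                            `G = ∏ (t - y_i) · (t - c) · u` with `u (pt c)` a unit.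
-/

set_option autoImplicit false

noncomputable section

namespace Fermat.Agent.A3.H735

open AlgebraicCurve Fermat.Agent.S37.H940 Fermat.Agent.A3.H799 Polynomial

variable {K F k Fk : Type*} [Field K] [Field F] [Algebra K F] [Field k] [Field Fk]
  [Algebra k Fk]

namespace Disc

open scoped Classical

variable {C : Ctx K F k Fk} (D : Disc C)

/-- `∏ (t - a_i)` as an element of `V` -/
def nodalV (l : List (IsLocalRing.maximalIdeal C.A)) : C.V :=
  (l.map fun a => D.tsub (a : C.A)).prod

@[simp] theorem nodalV_nil : D.nodalV [] = 1 := rfl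

@[simp] theorem nodalV_cons (a : IsLocalRing.maximalIdeal C.A)
    (l : List (IsLocalRing.maximalIdeal C.A)) :
    D.nodalV (a :: l) = D.tsub (a : C.A) * D.nodalV l := by
  simp [nodalV]

theorem reg_nodalV (l : List (IsLocalRing.maximalIdeal C.A)) : D.Reg (D.nodalV l) := by
  induction l with
  | nil => exact D.reg_one
  | cons a l ih =>
    rw [nodalV_cons]
    exact (D.reg_tsub _).mul D ih

theorem ρ_nodalV (l : List (IsLocalRing.maximalIdeal C.A)) :
    C.ρ (D.nodalV l) = C.ρ D.t ^ l.length := by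
  induction l with
  | nil => simp
  | cons a l ih =>
    rw [nodalV_cons, map_mul, ih, D.ρ_tsub (D.π_eq_zero_of_mem a.2), List.length_cons, pow_succ']

theorem ρ_nodalV_ne_zero (l : List (IsLocalRing.maximalIdeal C.A)) :
    C.ρ (D.nodalV l) ≠ 0 := by
  rw [D.ρ_nodalV]
  exact pow_ne_zero _ D.ρ_t_ne_zero

theorem nodalV_ne_zero (l : List (IsLocalRing.maximalIdeal C.A)) :
    ((D.nodalV l : C.V) : F) ≠ 0 :=
  C.ne_zero_of_ρ_ne_zero (D.ρ_nodalV_ne_zero l)

theorem ord_ρ_nodalV (l : List (IsLocalRing.maximalIdeal C.A)) :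
    D.Q.ord (C.ρ (D.nodalV l)) = l.length := by
  rw [D.ρ_nodalV, Fermat.Agent.Lib.RR.ord_pow, D.t_ord, mul_one]

/-- the nodal polynomial evaluated at the parameter, in the ring of the disc -/
theorem coe_aeval_nodal (l : List (IsLocalRing.maximalIdeal C.A)) :
    ((aeval D.discAlg.t (DiscAlg.nodal l) : D.ring) : F) = ((D.nodalV l : C.V) : F) := by
  induction l with
  | nil => simp
  | cons a l ih =>
    rw [DiscAlg.aeval_nodal_cons, nodalV_cons]
    show ((D.discAlg.t - algebraMap C.A D.ring (a : C.A) : D.ring) : F) *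
      ((aeval D.discAlg.t (DiscAlg.nodal l) : D.ring) : F) = _
    rw [ih]
    rfl

/-- the order of `t - a` at a point of the disc -/
theorem ord_tsub_pt (a : IsLocalRing.maximalIdeal C.A) {P : Place K F} (hP : P ∈ D.Φ.𝔉) :
    P.ord ((D.tsub (a : C.A) : C.V) : F) = if D.pt a = P then 1 else 0 := by
  split_ifs with h
  · subst h
    exact D.ord_pt a
  · refine D.ord_tsub_of_not_inMax hP fun hin => h ?_
    exact D.pt_unique (D.pt_mem a) hP (D.pt_spec a) hin

/-- the order of `∏ (t - a_i)` at a point of the disc -/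
theorem ord_nodalV (l : List (IsLocalRing.maximalIdeal C.A)) {P : Place K F}
    (hP : P ∈ D.Φ.𝔉) :
    P.ord ((D.nodalV l : C.V) : F) = ((l.map D.pt).count P : ℤ) := by
  induction l with
  | nil =>
    show P.ord (1 : F) = _
    simp [Place.ord_one]
  | cons a l ih =>
    rw [nodalV_cons]
    show P.ord (((D.tsub (a : C.A) : C.V) : F) * ((D.nodalV l : C.V) : F)) = _
    rw [Place.ord_mul _ (D.tsub_ne_zero (D.π_eq_zero_of_mem a.2)) (D.nodalV_ne_zero l), ih,
      D.ord_tsub_pt a hP, List.map_cons, List.count_cons]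
    split_ifs with h1 h2 h2
    · push_cast; ring
    · exact absurd (by simpa using h1) (by simpa using h2)
    · exact absurd (by simpa using h2) (by simpa using h1)
    · push_cast; ring

/-- **division by the nodes**: a regular function whose zeros on the disc dominate the points
`pt a_1, …, pt a_n` (with multiplicity) is `∏ (t - a_i) · h` with `h` regular. -/
theorem exists_nodalV_mul (l : List (IsLocalRing.maximalIdeal C.A)) {f : C.V} (hreg : D.Reg f)
    (hf : (f : F) = 0 ∨ ∀ P ∈ D.Φ.𝔉, (((l.map D.pt).count P : ℕ) : ℤ) ≤ P.ord (f : F)) :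
    ∃ h : C.V, D.Reg h ∧ f = D.nodalV l * h := by
  induction l generalizing f with
  | nil => exact ⟨f, hreg, by rw [nodalV_nil, one_mul]⟩
  | cons a l ih =>
    rcases hf with hf0 | hf
    · refine ⟨0, D.reg_zero, ?_⟩
      rw [mul_zero]
      exact Subtype.ext hf0
    by_cases hf0 : (f : F) = 0
    · refine ⟨0, D.reg_zero, ?_⟩
      rw [mul_zero]
      exact Subtype.ext hf0
    have hpos : 0 < (D.pt a).ord (f : F) := by
      have := hf (D.pt a) (D.pt_mem a)
      rw [List.map_cons, List.count_cons_self] at this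
      push_cast at this
      omega
    obtain ⟨f₁, hf₁, e⟩ := D.exists_div_of_inMax hreg (D.pt_mem a) (D.pt_spec a)
      (inMax_of_ord_pos hpos)
    have hf₁0 : (f₁ : F) ≠ 0 := by
      intro h0
      apply hf0
      have h1 : (f : F) = ((D.tsub (a : C.A) : C.V) : F) * (f₁ : F) :=
        congrArg (fun b : C.V => (b : F)) e
      rw [h1, h0, mul_zero]
    have hord : ∀ P ∈ D.Φ.𝔉, (((l.map D.pt).count P : ℕ) : ℤ) ≤ P.ord (f₁ : F) := by
      intro P hP
      have h1 := hf P hP
      have h2 : P.ord (f : F) =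
          P.ord ((D.tsub (a : C.A) : C.V) : F) + P.ord (f₁ : F) := by
        rw [← Place.ord_mul _ (D.tsub_ne_zero (D.π_eq_zero_of_mem a.2)) hf₁0]
        exact congrArg (fun b : C.V => P.ord (b : F)) e
      rw [h2, D.ord_tsub_pt a hP, List.map_cons, List.count_cons] at h1
      split_ifs at h1 with h3 h4 h4
      · push_cast at h1; omega
      · exact absurd (by simpa using h3) (by simpa using h4)
      · exact absurd (by simpa using h4) (by simpa using h3)
      · push_cast at h1; omega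
    obtain ⟨h, hh, e'⟩ := ih hf₁ (Or.inr hord)
    exact ⟨h, hh, by rw [e, e', nodalV_cons, mul_assoc]⟩

/-- the same in the ring of the disc, with the nodal polynomial of `H799.DiscAlg` -/
theorem exists_aeval_nodal_mul (l : List (IsLocalRing.maximalIdeal C.A)) (f : D.ring)
    (hf : (f : F) = 0 ∨ ∀ P ∈ D.Φ.𝔉, (((l.map D.pt).count P : ℕ) : ℤ) ≤ P.ord (f : F)) :
    ∃ h : D.ring, f = aeval D.discAlg.t (DiscAlg.nodal l) * h := by
  obtain ⟨h, hh, e⟩ := D.exists_nodalV_mul l (D.reg_toV f) hf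
  refine ⟨D.ofV h hh, Subtype.ext ?_⟩
  show (f : F) = ((aeval D.discAlg.t (DiscAlg.nodal l) : D.ring) : F) * (h : F)
  rw [D.coe_aeval_nodal]
  exact congrArg (fun b : C.V => (b : F)) e

/-- conversely, a multiple of the nodal polynomial vanishes at the nodes -/
theorem ord_of_eq_aeval_nodal_mul (l : List (IsLocalRing.maximalIdeal C.A)) {f h : D.ring}
    (e : f = aeval D.discAlg.t (DiscAlg.nodal l) * h) (hf : (f : F) ≠ 0)
    {P : Place K F} (hP : P ∈ D.Φ.𝔉) :
    P.ord (f : F) = (((l.map D.pt).count P : ℕ) : ℤ) + P.ord (h : F) := by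
  have e' : (f : F) = ((D.nodalV l : C.V) : F) * (h : F) := by
    rw [← D.coe_aeval_nodal]
    exact congrArg (fun b : D.ring => (b : F)) e
  have hh : (h : F) ≠ 0 := by
    intro h0
    apply hf
    rw [e', h0, mul_zero]
  rw [e', Place.ord_mul _ (D.nodalV_ne_zero l) hh, D.ord_nodalV l hP]

/-- the order of the reduction is non-negative for regular functions -/
theorem ord_ρ_nonneg {f : C.V} (hreg : D.Reg f) (hρ : C.ρ f ≠ 0) : 0 ≤ D.Q.ord (C.ρ f) := by
  rw [← D.sum_ord f hρ]
  exact finsum_nonneg fun P => finsum_nonneg fun hP => hreg P hP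

/-- a regular function with `ord_Q (ρ f) > 0` has a zero on the disc -/
theorem exists_zero {f : C.V} (hρ : C.ρ f ≠ 0) (hpos : 0 < D.Q.ord (C.ρ f)) :
    ∃ P ∈ D.Φ.𝔉, 0 < P.ord (f : F) := by
  have hf0 := C.ne_zero_of_ρ_ne_zero hρ
  have hsum := D.sum_ord f hρ
  rw [D.Φ.finsum_eq_sum _ hf0] at hsum
  obtain ⟨P, hPm, hPpos⟩ := Finset.exists_lt_of_sum_lt (f := fun _ => (0 : ℤ))
    (g := fun P : Place K F => P.ord (f : F)) (s := (D.Φ.fin _ hf0).toFinset)
    (by rw [Finset.sum_const_zero, hsum]; exact hpos)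
  exact ⟨P, ((Set.Finite.mem_toFinset _).1 hPm).1, hPpos⟩

/-- **factorisation**: a regular function with non-zero reduction is `∏ (t - a_i) · u` with
`n = ord_Q (ρ f)` and `u` regular, without zeros on the disc, `ord_Q (ρ u) = 0`. -/
theorem exists_factor {f : C.V} (hreg : D.Reg f) (hρ : C.ρ f ≠ 0) :
    ∃ (l : List (IsLocalRing.maximalIdeal C.A)) (u : C.V), D.Reg u ∧ C.ρ u ≠ 0 ∧
      D.Q.ord (C.ρ u) = 0 ∧ (l.length : ℤ) = D.Q.ord (C.ρ f) ∧ f = D.nodalV l * u := by
  obtain ⟨n, hn⟩ := Int.eq_ofNat_of_zero_le (D.ord_ρ_nonneg hreg hρ)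
  induction n generalizing f with
  | zero => exact ⟨[], f, hreg, hρ, by simpa using hn, by simpa using hn.symm, by simp⟩
  | succ n ih =>
    obtain ⟨P, hP, hpos⟩ := D.exists_zero hρ (by rw [hn]; positivity)
    obtain ⟨a, rfl⟩ := D.exists_eq_pt hP
    obtain ⟨f₁, hf₁, e⟩ := D.exists_div_of_inMax hreg (D.pt_mem a) (D.pt_spec a)
      (inMax_of_ord_pos hpos)
    have hρ₁ : C.ρ f₁ ≠ 0 := by
      intro h0
      apply hρ
      rw [e, map_mul, h0, mul_zero]
    have hn₁ : D.Q.ord (C.ρ f₁) = (n : ℤ) := by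
      have h1 : D.Q.ord (C.ρ f) = D.Q.ord (C.ρ D.t) + D.Q.ord (C.ρ f₁) := by
        rw [e, map_mul, D.ρ_tsub (D.π_eq_zero_of_mem a.2), Place.ord_mul _ D.ρ_t_ne_zero hρ₁]
      rw [hn, D.t_ord] at h1
      push_cast at h1
      omega
    obtain ⟨l, u, hu, hρu, hu0, hl, e'⟩ := ih hf₁ hρ₁ hn₁
    refine ⟨a :: l, u, hu, hρu, hu0, ?_, ?_⟩
    · rw [List.length_cons, hn]
      push_cast
      omega
    · rw [e, e', nodalV_cons, mul_assoc]

/-- **the disc-local part of `hgeo`** (hypothesis of `H799.local_mem`): if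
`G = ∏ (t - y_i) · h` with `h` regular, `ord_Q (ρ G) = n + 1` and `G` vanishes at `pt c` to a
higher order than the nodes account for, then `G = ∏ (t - y_i) · (t - c) · u` with `u` regular
and `u (pt c)` a unit. -/
theorem hgeo_local (l : List (IsLocalRing.maximalIdeal C.A)) (c : IsLocalRing.maximalIdeal C.A)
    (G h : D.ring) (e : G = aeval D.discAlg.t (DiscAlg.nodal l) * h)
    (hρ : C.ρ (D.toV G) ≠ 0) (hn : D.Q.ord (C.ρ (D.toV G)) = (l.length : ℤ) + 1)
    (hc : (((l.map D.pt).count (D.pt c) : ℕ) : ℤ) + 1 ≤ (D.pt c).ord (G : F)) :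
    ∃ u : D.ring, IsUnit (D.discAlg.ev c u) ∧
      G = aeval D.discAlg.t (DiscAlg.nodal l) *
        (D.discAlg.t - algebraMap C.A D.ring (c : C.A)) * u := by
  have hG0 : (G : F) ≠ 0 := C.ne_zero_of_ρ_ne_zero hρ
  -- `h` vanishes at `pt c`
  have hord := D.ord_of_eq_aeval_nodal_mul l e hG0 (D.pt_mem c)
  have hhpos : 0 < (D.pt c).ord (h : F) := by omega
  -- the identity in `V`
  have eV : D.toV G = D.nodalV l * D.toV h := by
    apply Subtype.ext
    show (G : F) = ((D.nodalV l : C.V) : F) * (h : F)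
    rw [← D.coe_aeval_nodal]
    exact congrArg (fun b : D.ring => (b : F)) e
  have hρh : C.ρ (D.toV h) ≠ 0 := by
    intro h0
    apply hρ
    rw [eV, map_mul, h0, mul_zero]
  have hnh : D.Q.ord (C.ρ (D.toV h)) = 1 := by
    have h1 : D.Q.ord (C.ρ (D.toV G)) =
        D.Q.ord (C.ρ (D.nodalV l)) + D.Q.ord (C.ρ (D.toV h)) := by
      rw [eV, map_mul, Place.ord_mul _ (D.ρ_nodalV_ne_zero l) hρh]
    rw [hn, D.ord_ρ_nodalV] at h1
    omega
  -- divide `h` by `t - c`
  obtain ⟨u, hu, eu⟩ := D.exists_div_of_inMax (D.reg_toV h) (D.pt_mem c) (D.pt_spec c)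
    (inMax_of_ord_pos hhpos)
  have hρu : C.ρ u ≠ 0 := by
    intro h0
    apply hρh
    rw [eu, map_mul, h0, mul_zero]
  have hnu : D.Q.ord (C.ρ u) = 0 := by
    have h1 : D.Q.ord (C.ρ (D.toV h)) = D.Q.ord (C.ρ D.t) + D.Q.ord (C.ρ u) := by
      rw [eu, map_mul, D.ρ_tsub (D.π_eq_zero_of_mem c.2), Place.ord_mul _ D.ρ_t_ne_zero hρu]
    rw [hnh, D.t_ord] at h1
    omega
  refine ⟨D.ofV u hu, ?_, ?_⟩
  · exact D.val_unit hρu hu hnu (D.pt_mem c) (D.ev_spec c (D.ofV u hu))
  · rw [e, mul_assoc]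
    congr 1
    apply Subtype.ext
    exact congrArg (fun b : C.V => (b : F)) eu

end Disc

end Fermat.Agent.A3.H735
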