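import Fermat.Agent.A3.H735.Factor
import Fermat.Agent.A3.H799.GoodRed
import Fermat.Agent.S37.H940.Assembly

/-!
# A3 / LOCAL — the DISC DICTIONARY, part 4: residue discs of a `GoodRed`  (helper735)

Adapter from the frozen interface `H799.GoodRed` (= helper979's `RedDatum`) to the disc calculus
of `Tube.lean`, `DiscInst.lean`, `Factor.lean`:

* `ctxOf 𝓡`          : the reduction context (`S37.H940.Ctx`) of a `GoodRed`;
* `discOf 𝓡 Q t …`   : the residue disc `r⁻¹ Q` with parameter `t ∈ O` (regular on `r⁻¹ Q`, with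
                        `ord_Q (red t) = 1`) as a `Disc (ctxOf 𝓡)`;
* `discAlgOf`        : the resulting `H799.DiscAlg 𝓡.V (ring of the disc)`
                        (`(ctxOf 𝓡).A` is `𝓡.V` by `rfl`).
-/

set_option autoImplicit false

noncomputable section

namespace Fermat.Agent.A3.H735

open AlgebraicCurve Fermat.Agent.S37.H940 Fermat.Agent.A3.H799

variable {K F k Fk : Type*} [Field K] [Field F] [Algebra K F] [Field k] [Field Fk]
  [Algebra k Fk]

/-- the kernel of the reduction is the maximal ideal of the Gauss valuation ring -/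
theorem isUnit_of_red_ne_zero (𝓡 : GoodRed K F k Fk) (u : 𝓡.O) (h : 𝓡.red u ≠ 0) :
    IsUnit u := by
  have hmax : (RingHom.ker 𝓡.red).IsMaximal :=
    RingHom.ker_isMaximal_of_surjective 𝓡.red 𝓡.red_surjective
  have hker := IsLocalRing.eq_maximalIdeal hmax
  by_contra hu
  apply h
  have : u ∈ IsLocalRing.maximalIdeal 𝓡.O := (IsLocalRing.mem_maximalIdeal u).2 hu
  rw [← hker] at this
  exact this

theorem inv_mem_of_red_ne_zero (𝓡 : GoodRed K F k Fk) (u : 𝓡.O) (h : 𝓡.red u ≠ 0) :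
    ((u : F))⁻¹ ∈ 𝓡.O := by
  obtain ⟨v, hv⟩ := isUnit_iff_exists_inv.1 (isUnit_of_red_ne_zero 𝓡 u h)
  have hv' : (u : F) * (v : F) = 1 := congrArg (fun x : 𝓡.O => (x : F)) hv
  have : ((u : F))⁻¹ = (v : F) := by
    rw [eq_comm, ← mul_eq_one_iff_eq_inv₀ (by
      intro h0
      rw [h0, zero_mul] at hv'
      exact zero_ne_one hv'), mul_comm]
    exact hv'
  rw [this]
  exact v.2

/-- The reduction context of a `GoodRed`. -/
def ctxOf (𝓡 : GoodRed K F k Fk) : Ctx K F k Fk where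
  A := 𝓡.V
  π := 𝓡.res
  π_surj := 𝓡.res_surjective
  π_eq_zero a := by
    rw [𝓡.res_eq_zero, ValuationSubring.coe_mem_nonunits_iff, IsLocalRing.mem_maximalIdeal,
      mem_nonunits_iff]
  V := 𝓡.O.toSubring
  ρ := 𝓡.red
  A_mem a := (𝓡.algebraMap_mem (a : K)).2 a.2
  ρ_A a := 𝓡.red_algebraMap a _
  inv_mem u h := inv_mem_of_red_ne_zero 𝓡 u h

@[simp] theorem ctxOf_A (𝓡 : GoodRed K F k Fk) : (ctxOf 𝓡).A = 𝓡.V := rfl

@[simp] theorem ctxOf_ρ (𝓡 : GoodRed K F k Fk) (u : 𝓡.O) : (ctxOf 𝓡).ρ u = 𝓡.red u := rfl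

open Classical in
/-- conservation of number on the tube `r⁻¹ Q` of a `GoodRed` -/
theorem finsum_tube_eq (𝓡 : GoodRed K F k Fk) (Q : Place k Fk) (u : 𝓡.O) (hu : 𝓡.red u ≠ 0) :
    ∑ᶠ P ∈ {P : Place K F | 𝓡.r P = Q}, P.ord (u : F) = Q.ord (𝓡.red u) := by
  have hu0 : (u : F) ≠ 0 := by
    intro h0
    apply hu
    have : u = 0 := Subtype.ext h0
    rw [this, map_zero]
  have := 𝓡.ff1.hpd
  obtain ⟨D, hD, -⟩ := HasPrincipalDivisors.exists_divisor (K := K) (u : F) hu0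
  rw [← 𝓡.div_red u hu D hD Q, mapDomain_apply_eq_sum, ← Finset.sum_filter]
  rw [finsum_mem_eq_sum_of_inter_support_eq]
  · exact Finset.sum_congr rfl fun P _ => (hD P).symm
  · ext P
    simp only [Set.mem_inter_iff, Set.mem_ofPred_eq, Function.mem_support, ne_eq,
      Finset.coe_filter, Finsupp.mem_support_iff, hD P]
    tauto

/-- The residue disc `r⁻¹ Q` of a `GoodRed`, with a parameter `t`. -/
def discOf (𝓡 : GoodRed K F k Fk) (Q : Place k Fk) (t : 𝓡.O)
    (ht : ∀ P : Place K F, 𝓡.r P = Q → 0 ≤ P.ord (t : F)) (ht1 : Q.ord (𝓡.red t) = 1) :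
    Disc (ctxOf 𝓡) where
  Φ :=
    { 𝔉 := {P : Place K F | 𝓡.r P = Q}
      𝔊 := {Q}
      ne := Finset.singleton_nonempty Q
      res := fun P _ f hf => Fermat.Agent.Lib.RR.exists_const_sub P (𝓡.ff1.deg_eq_one P) hf
      fin := fun u hu => by
        have := 𝓡.ff1.hpd
        obtain ⟨D, hD, -⟩ := HasPrincipalDivisors.exists_divisor (K := K) u hu
        refine D.support.finite_toSet.subset fun P hP => ?_
        rw [Finset.mem_coe, Finsupp.mem_support_iff, hD P]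
        exact hP.2
      FC := fun u hu => by
        rw [Finset.sum_singleton]
        exact finsum_tube_eq 𝓡 Q u hu
      LP := fun Q' hQ' => by
        rw [Finset.mem_singleton] at hQ'
        subst hQ'
        exact ⟨t, fun P hP => ht P hP, ht1, fun Q'' hQ'' hne =>
          absurd (Finset.mem_singleton.1 hQ'') hne⟩
      SEP := ⟨0, fun P _ => by
          show 0 ≤ P.ord (0 : F)
          rw [Place.ord_zero], fun Q₁ hQ₁ Q₂ hQ₂ _ _ _ => by
          rw [Finset.mem_singleton.1 hQ₁, Finset.mem_singleton.1 hQ₂]⟩ }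
  Q := Q
  h𝔊 := rfl
  t := t
  t_reg := fun P hP => ht P hP
  t_ord := ht1

@[simp] theorem discOf_tube (𝓡 : GoodRed K F k Fk) (Q : Place k Fk) (t : 𝓡.O)
    (ht : ∀ P : Place K F, 𝓡.r P = Q → 0 ≤ P.ord (t : F)) (ht1 : Q.ord (𝓡.red t) = 1)
    (P : Place K F) : P ∈ (discOf 𝓡 Q t ht ht1).Φ.𝔉 ↔ 𝓡.r P = Q := Iff.rfl

/-- **The disc algebra of the residue disc `r⁻¹ Q` of a `GoodRed`.** -/
def discAlgOf (𝓡 : GoodRed K F k Fk) (Q : Place k Fk) (t : 𝓡.O)
    (ht : ∀ P : Place K F, 𝓡.r P = Q → 0 ≤ P.ord (t : F)) (ht1 : Q.ord (𝓡.red t) = 1) :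
    DiscAlg (ctxOf 𝓡).A (discOf 𝓡 Q t ht ht1).ring :=
  (discOf 𝓡 Q t ht ht1).discAlg

end Fermat.Agent.A3.H735
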