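import Fermat.Agent.S37.H940.Core

/-!
# A3 / LOCAL — the DISC DICTIONARY, part 1: calculus on one residue disc  (helper735)

Built on helper940's reduction context `S37.H940.Ctx` / `Fibre` (on main).

A `Disc C` is a fibre of the reduction with ONE point `Q` on the special fibre (so the tube
`𝔉` is the residue disc `r⁻¹ Q`) together with a parameter: `t ∈ V`, regular on the disc, whose
reduction has a simple zero at `Q`.

Results (all pointwise, honest functions of `F`):

* `Disc.sum_ord`      : conservation of number, `∑_{P ∈ disc} ord_P u = ord_Q (ρ u)`;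
* `Disc.exists_val`   : values of regular functions lie in `A`;  `Disc.val_red` : they reduce to
                        the value of the reduction at `Q`;
* `Disc.tval_pi`      : the parameter has values in `𝔪_A`;
* `Disc.exists_pt`    : every `a ∈ 𝔪_A` is the parameter of a point of the disc, which is a simple
                        zero of `t - a`, and `t - a` has no other zero on the disc;
* `Disc.pt_unique`    : the parameter is injective on the disc  (`disc ≅ 𝔪_A`);
* `Disc.ord_tsub`     : `ord_P (t - a) = 1` if `t(P) = a`, else `0`;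
* `Disc.exists_div`   : **Taylor division**, `b = b(P) + (t - t(P)) h` with `h ∈ V` regular on the disc;
* `Disc.ord_eq_zero_of_ord_ρ` , `Disc.val_unit` : a regular function whose reduction does not
                        vanish at `Q` has no zero on the disc and unit values.
-/

set_option autoImplicit false

noncomputable section

namespace Fermat.Agent.A3.H735

open AlgebraicCurve Fermat.Agent.S37.H940

variable {K F k Fk : Type*} [Field K] [Field F] [Algebra K F] [Field k] [Field Fk]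
  [Algebra k Fk]

/-- A residue disc (a fibre of the reduction over ONE point `Q`) with a parameter `t`. -/
structure Disc (C : Ctx K F k Fk) where
  /-- the fibre -/
  Φ : Fibre C
  /-- the point of the special fibre -/
  Q : Place k Fk
  h𝔊 : Φ.𝔊 = {Q}
  /-- the parameter -/
  t : C.V
  t_reg : ∀ P ∈ Φ.𝔉, 0 ≤ P.ord (t : F)
  t_ord : Q.ord (C.ρ t) = 1

namespace Disc

variable {C : Ctx K F k Fk} (D : Disc C)

/-- `b ∈ V` is regular on the disc -/
def Reg (b : C.V) : Prop := ∀ P ∈ D.Φ.𝔉, 0 ≤ P.ord (b : F)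

theorem Q_mem : D.Q ∈ D.Φ.𝔊 := by
  rw [D.h𝔊]
  exact Finset.mem_singleton_self _

theorem eq_Q {Q' : Place k Fk} (h : Q' ∈ D.Φ.𝔊) : Q' = D.Q := by
  rw [D.h𝔊] at h
  exact Finset.mem_singleton.1 h

theorem ρ_t_ne_zero : C.ρ D.t ≠ 0 := by
  intro h
  have := D.t_ord
  rw [h, Place.ord_zero] at this
  exact zero_ne_one this

theorem reg_t : D.Reg D.t := D.t_reg

theorem reg_const (a : C.A) : D.Reg (C.const a) := fun P _ => ord_nonneg_const P _

theorem Reg.add {b b' : C.V} (h : D.Reg b) (h' : D.Reg b') : D.Reg (b + b') :=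
  fun P hP => ord_nonneg_add (h P hP) (h' P hP)

theorem Reg.sub {b b' : C.V} (h : D.Reg b) (h' : D.Reg b') : D.Reg (b - b') :=
  fun P hP => ord_nonneg_sub (h P hP) (h' P hP)

theorem Reg.mul {b b' : C.V} (h : D.Reg b) (h' : D.Reg b') : D.Reg (b * b') :=
  fun P hP => ord_nonneg_mul (h P hP) (h' P hP)

theorem reg_one : D.Reg (1 : C.V) := fun P _ => by
  show 0 ≤ P.ord (1 : F)
  rw [Place.ord_one]

theorem reg_zero : D.Reg (0 : C.V) := fun P _ => by
  show 0 ≤ P.ord (0 : F)
  rw [Place.ord_zero]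

/-- **conservation of number** on the disc -/
theorem sum_ord (u : C.V) (hu : C.ρ u ≠ 0) :
    ∑ᶠ P ∈ D.Φ.𝔉, P.ord (u : F) = D.Q.ord (C.ρ u) := by
  rw [D.Φ.FC u hu, D.h𝔊, Finset.sum_singleton]

/-- the order at a point of the disc is bounded by the order of the reduction -/
theorem ord_le {u : C.V} (hu : C.ρ u ≠ 0) (hreg : D.Reg u) {P : Place K F}
    (hP : P ∈ D.Φ.𝔉) : P.ord (u : F) ≤ D.Q.ord (C.ρ u) := by
  have hu0 := C.ne_zero_of_ρ_ne_zero hu
  rw [← D.sum_ord u hu, D.Φ.finsum_eq_sum _ hu0]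
  have hnn : ∀ P' ∈ (D.Φ.fin _ hu0).toFinset, 0 ≤ P'.ord (u : F) := fun P' hP' =>
    hreg P' ((Set.Finite.mem_toFinset _).1 hP').1
  by_cases h0 : P.ord (u : F) = 0
  · rw [h0]
    exact Finset.sum_nonneg hnn
  · exact Finset.single_le_sum (f := fun P' : Place K F => P'.ord (u : F)) hnn
      ((Set.Finite.mem_toFinset _).2 ⟨hP, h0⟩)

/-- a regular function whose reduction has order `0` at `Q` has no zero on the disc -/
theorem ord_eq_zero_of_ord_ρ {u : C.V} (hu : C.ρ u ≠ 0) (hreg : D.Reg u)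
    (h0 : D.Q.ord (C.ρ u) = 0) {P : Place K F} (hP : P ∈ D.Φ.𝔉) : P.ord (u : F) = 0 :=
  le_antisymm (h0 ▸ D.ord_le hu hreg hP) (hreg P hP)

/-- values of regular functions exist and lie in `A` -/
theorem exists_val {b : C.V} (hreg : D.Reg b) {P : Place K F} (hP : P ∈ D.Φ.𝔉) :
    ∃ c : C.A, InMax P ((b : F) - algebraMap K F (c : K)) :=
  D.Φ.exists_value b hreg hP

/-- the value of the reduction at `Q` is the reduction of the value -/
theorem val_red {b : C.V} (hreg : D.Reg b) {P : Place K F} (hP : P ∈ D.Φ.𝔉) {c : C.A}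
    (hc : InMax P ((b : F) - algebraMap K F (c : K))) :
    InMax D.Q (C.ρ b - algebraMap k Fk (C.π c)) := by
  obtain ⟨Q', hQ', h⟩ := D.Φ.exists_point b hreg hP hc
  rwa [D.eq_Q hQ'] at h

/-- the parameter has values in the maximal ideal -/
theorem tval_pi {P : Place K F} (hP : P ∈ D.Φ.𝔉) {a : C.A}
    (ha : InMax P ((D.t : F) - algebraMap K F (a : K))) : C.π a = 0 := by
  have h1 := D.val_red D.reg_t hP ha
  have h2 : InMax D.Q (C.ρ D.t) := inMax_of_ord_pos (by rw [D.t_ord]; exact one_pos)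
  have h3 := h2.sub h1
  rw [sub_sub_cancel, inMax_algebraMap_iff] at h3
  exact h3

/-- the function `t - a` -/
def tsub (a : C.A) : C.V := D.t - C.const a

@[simp] theorem coe_tsub (a : C.A) :
    ((D.tsub a : C.V) : F) = (D.t : F) - algebraMap K F (a : K) := rfl

theorem reg_tsub (a : C.A) : D.Reg (D.tsub a) := D.reg_t.sub D (D.reg_const a)

theorem ρ_tsub {a : C.A} (ha : C.π a = 0) : C.ρ (D.tsub a) = C.ρ D.t := by
  rw [tsub, map_sub, C.ρ_const, ha, map_zero, sub_zero]

theorem ρ_tsub_ne_zero {a : C.A} (ha : C.π a = 0) : C.ρ (D.tsub a) ≠ 0 := by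
  rw [D.ρ_tsub ha]
  exact D.ρ_t_ne_zero

theorem tsub_ne_zero {a : C.A} (ha : C.π a = 0) : ((D.tsub a : C.V) : F) ≠ 0 :=
  C.ne_zero_of_ρ_ne_zero (D.ρ_tsub_ne_zero ha)

theorem sum_ord_tsub {a : C.A} (ha : C.π a = 0) :
    ∑ᶠ P ∈ D.Φ.𝔉, P.ord ((D.tsub a : C.V) : F) = 1 := by
  rw [D.sum_ord _ (D.ρ_tsub_ne_zero ha), D.ρ_tsub ha, D.t_ord]

/-- every `a ∈ 𝔪_A` is the parameter of a point of the disc: a simple zero of `t - a`, and
`t - a` has no other zero on the disc -/
theorem exists_pt {a : C.A} (ha : C.π a = 0) :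
    ∃ P ∈ D.Φ.𝔉, P.ord ((D.tsub a : C.V) : F) = 1 ∧
      ∀ P' ∈ D.Φ.𝔉, P' ≠ P → P'.ord ((D.tsub a : C.V) : F) = 0 := by
  classical
  have hu0 := D.tsub_ne_zero ha
  have hsum := D.sum_ord_tsub ha
  have hsum' := hsum
  rw [D.Φ.finsum_eq_sum _ hu0] at hsum'
  obtain ⟨P, hPm, hPpos⟩ := Finset.exists_lt_of_sum_lt (f := fun _ => (0 : ℤ))
    (g := fun P : Place K F => P.ord ((D.tsub a : C.V) : F)) (s := (D.Φ.fin _ hu0).toFinset)
    (by rw [Finset.sum_const_zero, hsum']; exact one_pos)
  rw [Set.Finite.mem_toFinset] at hPm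
  have hle := D.ord_le (D.ρ_tsub_ne_zero ha) (D.reg_tsub a) hPm.1
  rw [D.ρ_tsub ha, D.t_ord] at hle
  have hone : P.ord ((D.tsub a : C.V) : F) = 1 := le_antisymm hle hPpos
  refine ⟨P, hPm.1, hone, fun P' hP' hne => ?_⟩
  exact D.Φ.ord_eq_zero_of_finsum_le hu0 (D.reg_tsub a) hPm.1 (by rw [hsum, hone]) hP' hne

/-- the order of `t - a` at a point of the disc where it vanishes is `1` -/
theorem ord_tsub_of_inMax {a : C.A} {P : Place K F} (hP : P ∈ D.Φ.𝔉)
    (h : InMax P ((D.t : F) - algebraMap K F (a : K))) :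
    P.ord ((D.tsub a : C.V) : F) = 1 := by
  have ha := D.tval_pi hP h
  have hpos : 0 < P.ord ((D.tsub a : C.V) : F) := h.ord_pos (D.tsub_ne_zero ha)
  have hle := D.ord_le (D.ρ_tsub_ne_zero ha) (D.reg_tsub a) hP
  rw [D.ρ_tsub ha, D.t_ord] at hle
  exact le_antisymm hle hpos

/-- the parameter is injective on the disc -/
theorem pt_unique {a : C.A} {P P' : Place K F} (hP : P ∈ D.Φ.𝔉) (hP' : P' ∈ D.Φ.𝔉)
    (h : InMax P ((D.t : F) - algebraMap K F (a : K)))
    (h' : InMax P' ((D.t : F) - algebraMap K F (a : K))) : P = P' := by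
  have ha := D.tval_pi hP h
  obtain ⟨P₀, -, -, hP₀⟩ := D.exists_pt ha
  have h1 : P = P₀ := by
    by_contra hne
    have := hP₀ P hP hne
    rw [D.ord_tsub_of_inMax hP h] at this
    exact one_ne_zero this
  have h2 : P' = P₀ := by
    by_contra hne
    have := hP₀ P' hP' hne
    rw [D.ord_tsub_of_inMax hP' h'] at this
    exact one_ne_zero this
  rw [h1, h2]

/-- the order of `t - a` at a point of the disc where it does not vanish is `0` -/
theorem ord_tsub_of_not_inMax {a : C.A} {P : Place K F} (hP : P ∈ D.Φ.𝔉)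
    (h : ¬ InMax P ((D.t : F) - algebraMap K F (a : K))) :
    P.ord ((D.tsub a : C.V) : F) = 0 := by
  by_contra h0
  apply h
  exact inMax_of_ord_pos (lt_of_le_of_ne (D.reg_tsub a P hP) (Ne.symm h0))

open Classical in
/-- `ord_P (t - a) = 1` if `t(P) = a`, else `0` -/
theorem ord_tsub {a : C.A} {P : Place K F} (hP : P ∈ D.Φ.𝔉) :
    P.ord ((D.tsub a : C.V) : F) =
      if InMax P ((D.t : F) - algebraMap K F (a : K)) then 1 else 0 := by
  split_ifs with h
  · exact D.ord_tsub_of_inMax hP h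
  · exact D.ord_tsub_of_not_inMax hP h

/-- the inverse of `t - a`, an element of `V` -/
def tsubInv {a : C.A} (ha : C.π a = 0) : C.V := C.inv (D.tsub a) (D.ρ_tsub_ne_zero ha)

theorem tsub_mul_tsubInv {a : C.A} (ha : C.π a = 0) : D.tsub a * D.tsubInv ha = 1 :=
  C.mul_inv _ _

/-- **Taylor division**: a regular function vanishing at the point with parameter `a` is
divisible by `t - a` among the regular functions. -/
theorem exists_div_of_inMax {b : C.V} (hreg : D.Reg b) {P : Place K F} (hP : P ∈ D.Φ.𝔉)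
    {a : C.A} (ha : InMax P ((D.t : F) - algebraMap K F (a : K))) (hb : InMax P (b : F)) :
    ∃ h : C.V, D.Reg h ∧ b = D.tsub a * h := by
  have hπ := D.tval_pi hP ha
  refine ⟨b * D.tsubInv hπ, ?_, ?_⟩
  · intro P' hP'
    by_cases hb0 : (b : F) = 0
    · have : ((b * D.tsubInv hπ : C.V) : F) = 0 := by
        show (b : F) * _ = 0
        rw [hb0, zero_mul]
      rw [this, Place.ord_zero]
    · have hu0 := D.tsub_ne_zero hπ
      have hcoe : ((b * D.tsubInv hπ : C.V) : F) = (b : F) * (((D.tsub a : C.V) : F))⁻¹ := rfl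
      rw [hcoe, Place.ord_mul _ hb0 (inv_ne_zero hu0), Place.ord_inv]
      by_cases hPP : P' = P
      · subst hPP
        rw [D.ord_tsub_of_inMax hP' ha]
        have := hb.ord_pos hb0
        omega
      · have hn : ¬ InMax P' ((D.t : F) - algebraMap K F (a : K)) := fun h' =>
          hPP (D.pt_unique hP' hP h' ha)
        rw [D.ord_tsub_of_not_inMax hP' hn]
        have := hreg P' hP'
        omega
  · rw [mul_comm b, ← mul_assoc, D.tsub_mul_tsubInv, one_mul]

/-- **Taylor**: `b = b(P) + (t - t(P)) h`. -/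
theorem exists_taylor {b : C.V} (hreg : D.Reg b) {P : Place K F} (hP : P ∈ D.Φ.𝔉)
    {a : C.A} (ha : InMax P ((D.t : F) - algebraMap K F (a : K)))
    {c : C.A} (hc : InMax P ((b : F) - algebraMap K F (c : K))) :
    ∃ h : C.V, D.Reg h ∧ b = C.const c + D.tsub a * h := by
  obtain ⟨h, hh, e⟩ := D.exists_div_of_inMax (b := b - C.const c)
    (hreg.sub D (D.reg_const c)) hP ha hc
  exact ⟨h, hh, by rw [← e]; ring⟩

/-- a regular function whose reduction does not vanish at `Q` has unit values on the disc -/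
theorem val_unit {u : C.V} (hu : C.ρ u ≠ 0) (hreg : D.Reg u) (h0 : D.Q.ord (C.ρ u) = 0)
    {P : Place K F} (hP : P ∈ D.Φ.𝔉) {c : C.A}
    (hc : InMax P ((u : F) - algebraMap K F (c : K))) : IsUnit c := by
  by_contra hcu
  have hπ : C.π c = 0 := (C.π_eq_zero c).2 hcu
  have h1 := D.val_red hreg hP hc
  rw [hπ, map_zero, sub_zero] at h1
  exact not_inMax_of_ord_eq_zero hu h0 h1

/-- a regular function whose reduction does not vanish at `Q` has a regular inverse -/
theorem reg_inv {u : C.V} (hu : C.ρ u ≠ 0) (hreg : D.Reg u) (h0 : D.Q.ord (C.ρ u) = 0) :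
    D.Reg (C.inv u hu) := by
  intro P hP
  show 0 ≤ P.ord ((u : F))⁻¹
  rw [Place.ord_inv, D.ord_eq_zero_of_ord_ρ hu hreg h0 hP, neg_zero]

end Disc

end Fermat.Agent.A3.H735
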